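import Fermat.Agent.S19.W.Main

/-!
# S19, layer ND : representatives of divided classes, classes of data, values and automorphisms

* `nd_exists_rep` : if `Pic0` is `m`-divisible, `E` of degree `0`, `S` finite: `m W = E + div f` with `W = 0` on `S`.
* `nd_cls_nsmul_eq_zero` : `m D = div t` and `D` of degree `0`  ⟹ `m • cls D = 0`.
* `nd_val_smul` : `val (σ • w) (σ f) = val w f` for `σ : F ≃ₐ[K] F`.
-/

set_option autoImplicit false
set_option linter.unusedSectionVars false
set_option linter.style.haveILetI false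

noncomputable section

namespace Fermat.Agent.S19

open AlgebraicCurve Fermat.Agent.S37 Fermat.Agent.S27

variable {K F : Type*} [Field K] [Field F] [Algebra K F] [IsAlgClosed K] [CharZero K]

theorem nd_cls_of_mem {D : Divisor K F} (hD : D ∈ Divisor.degZero (K := K) (F := F)) :
    cls D = Pic0.mk ⟨D, hD⟩ := by
  rw [cls, dif_pos hD]

theorem nd_mk_eq_zero_iff (D : Divisor.degZero (K := K) (F := F)) :
    Pic0.mk D = 0 ↔ (D : Divisor K F) ∈ Divisor.principal (K := K) (F := F) := by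
  rw [Pic0.mk, QuotientAddGroup.eq_zero_iff, AddSubgroup.mem_addSubgroupOf]

theorem nd_mk_nsmul (m : ℕ) (D : Divisor.degZero (K := K) (F := F)) :
    Pic0.mk (m • D) = m • Pic0.mk D := rfl

theorem nd_ord_pow (P : Place K F) (f : F) (m : ℕ) : P.ord (f ^ m) = m * P.ord f := by
  have := P.ord_zpow f (m : ℤ)
  rwa [zpow_natCast] at this

/-- the degree of the divisor part of a datum is `0` -/
theorem nd_degree_eq_zero (h : IsFF K F) {m : ℕ} (hm : 0 < m) {D : Divisor K F} {u : F}
    (hu : u ≠ 0) (hD : ∀ P : Place K F, P.ord u = m * D P) : Divisor.degree D = 0 := by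
  haveI := h.hasPrincipalDivisors
  obtain ⟨E, hE, hE0⟩ := HasPrincipalDivisors.exists_divisor (K := K) u hu
  have h1 : E = m • D := by
    ext P
    rw [hE, hD, Finsupp.smul_apply, nsmul_eq_mul]
  rw [h1, map_nsmul, nsmul_eq_mul] at hE0
  rcases mul_eq_zero.1 hE0 with h2 | h2
  · exact absurd (by exact_mod_cast h2) hm.ne'
  · exact h2

/-- `m D = div t` ⟹ `m • cls D = 0` -/
theorem nd_nsmul_cls_eq_zero {m : ℕ} {D : Divisor K F} {t : F} (ht : t ≠ 0)
    (hD : ∀ P : Place K F, P.ord t = m * D P) : m • cls D = 0 := by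
  by_cases hd : D ∈ Divisor.degZero (K := K) (F := F)
  · rw [nd_cls_of_mem hd, ← nd_mk_nsmul, nd_mk_eq_zero_iff]
    refine ⟨t, ht, fun P => ?_⟩
    rw [hD]
    simp
  · rw [cls, dif_neg hd, smul_zero]

/-- representatives of `m`-th parts of a class -/
theorem nd_exists_rep (h : IsFF K F) (m : ℕ) (hdiv : ∀ x : Pic0 K F, ∃ z, m • z = x)
    (E : Divisor K F) (hE : Divisor.degree E = 0) (S : Finset (Place K F)) :
    ∃ (W : Divisor K F) (f : F), f ≠ 0 ∧ (∀ P ∈ S, W P = 0) ∧
      ∀ P : Place K F, P.ord f = m * W P - E P := by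
  haveI := h.hasPrincipalDivisors
  obtain ⟨z, hz⟩ := hdiv (Pic0.mk ⟨E, hE⟩)
  obtain ⟨W0, rfl⟩ := Pic0.mk_surjective z
  obtain ⟨g, hg, hgS⟩ := exists_move h (W0 : Divisor K F) S
  obtain ⟨Dg, hDg, -⟩ := HasPrincipalDivisors.exists_divisor (K := K) g hg
  have h1 : Pic0.mk (m • W0 - ⟨E, hE⟩) = 0 := by
    have : Pic0.mk (m • W0 - ⟨E, hE⟩) = m • Pic0.mk W0 - Pic0.mk ⟨E, hE⟩ := rfl
    rw [this, hz, sub_self]
  rw [nd_mk_eq_zero_iff] at h1
  obtain ⟨f0, hf0, hf⟩ := h1
  refine ⟨(W0 : Divisor K F) + Dg, f0 * g ^ m, mul_ne_zero hf0 (pow_ne_zero _ hg), ?_, ?_⟩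
  · intro P hP
    rw [Finsupp.add_apply, hDg]
    exact hgS P hP
  · intro P
    rw [P.ord_mul hf0 (pow_ne_zero _ hg), nd_ord_pow, ← hf P, Finsupp.add_apply, hDg]
    have : ((m • W0 - ⟨E, hE⟩ : Divisor.degZero (K := K) (F := F)) : Divisor K F) P =
        m * (W0 : Divisor K F) P - E P := by
      simp
    rw [this]
    ring

/-- values and `K`-automorphisms -/
theorem nd_val_smul (h : IsFF K F) (σ : F ≃ₐ[K] F) (w : Place K F) {f : F} (hf : Reg w f) :
    val (σ • w) (σ f) = val w f := by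
  refine val_eq_of_van h ?_
  have h1 := van_sub_val h hf
  rcases h1 with h1 | h1
  · left
    rw [← σ.commutes, ← map_sub, h1, map_zero]
  · right
    rw [← σ.commutes, ← map_sub, Place.ord_smul]
    exact h1

end Fermat.Agent.S19
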