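import Fermat.Agent.S19.ND.Rep
import Fermat.Agent.S19.W.NormD
import Fermat.Agent.Lib.PicDiv

/-!
# S19, layer ND : the computation on the Kummer cover

`(A, u1)` an `ℓ^(i+1)`-datum on `F`, `F' = F(v)`, `v^ℓ = u1`, `τ v = ζ v`, `ζ ≠ 1`.  Then there are `ℓ^(i+1+r)`-data
`a = (A, u1^(ℓ^r))` and `y`, disjoint, with `(wp a y)^(ℓ^i) = ζ⁻¹`.   (board, helper15, [S19/ND])
-/

set_option autoImplicit false
set_option linter.unusedSectionVars false

noncomputable section

namespace Fermat.Agent.S19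

open AlgebraicCurve Fermat.Agent.S37 Fermat.Agent.S27

variable {K F F' : Type*} [Field K] [Field F] [Field F'] [Algebra K F] [Algebra K F']
  [IsAlgClosed K] [CharZero K] [Algebra F F'] [IsScalarTower K F F'] [Module.Finite F F']

/-- an automorphism of `F'` over `F` does not change the restriction of a place -/
theorem nd_restrict_smul (τ : F' ≃ₐ[K] F') (hτF : ∀ f : F, τ (algebraMap F F' f) = algebraMap F F' f)
    (w : Place K F') : (τ • w).restrict F = w.restrict F := by
  apply Place.ext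
  ext f
  rw [Place.mem_restrict_iff, Place.mem_restrict_iff]
  change Reg (τ • w) _ ↔ Reg w _
  rw [reg_iff, reg_iff]
  conv_lhs => rw [← hτF f, Place.ord_smul]

theorem nd_core (h : IsFF K F) (h' : IsFF K F') (ℓ i r : ℕ) (hℓ : 0 < ℓ) (A : Divisor K F) (u1 : F)
    (hu1 : u1 ≠ 0) (hA : ∀ P : Place K F, P.ord u1 = (ℓ ^ (i + 1) : ℕ) * A P)
    (v : F') (τ : F' ≃ₐ[K] F') (ζ : K) (hv : v ^ ℓ = algebraMap F F' u1)
    (hτ : τ v = algebraMap K F' ζ * v) (hζ1 : ζ ≠ 1) (hζ0 : ζ ≠ 0)
    (hτF : ∀ f : F, τ (algebraMap F F' f) = algebraMap F F' f) :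
    ∃ a y : TD K F (ℓ ^ (i + 1 + r)), a.D = A ∧ a.Disj y ∧ wp a y ≠ 1 := by
  classical
  have := h'.hasPrincipalDivisors
  set n : ℕ := ℓ ^ (i + 1 + r) with hn
  have hn0 : 0 < n := pow_pos hℓ _
  have hv0 : v ≠ 0 := by
    rintro rfl
    rw [zero_pow hℓ.ne'] at hv
    exact hu1 ((map_eq_zero (algebraMap F F')).1 hv.symm)
  have hepos : ∀ w : Place K F', (0 : ℤ) < (Place.ramificationIndex (F := F) w : ℤ) := fun w => by
    exact_mod_cast w.ramificationIndex_pos (F := F)
  -- the divisor of `v`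
  have hordv : ∀ w : Place K F', w.ord v = (ℓ ^ i : ℕ) * (Divisor.pullback F' A) w := by
    intro w
    have h1 : (ℓ : ℤ) * w.ord v = w.ord (algebraMap F F' u1) := by
      rw [← hv, nd_ord_pow]
    rw [w.ord_restrict, hA] at h1
    rw [Divisor.pullback_apply]
    have hℓ' : (ℓ : ℤ) ≠ 0 := by exact_mod_cast hℓ.ne'
    apply mul_left_cancel₀ hℓ'
    rw [h1]
    push_cast
    ring
  have hpb0 : ∀ w : Place K F', Divisor.pullback F' A w = 0 ↔ A (w.restrict F) = 0 := by
    intro w
    rw [Divisor.pullback_apply]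
    constructor
    · intro h0
      rcases mul_eq_zero.1 h0 with h1 | h1
      · exact absurd h1 (hepos w).ne'
      · exact h1
    · intro h0
      rw [h0, mul_zero]
  -- the base place
  have := infinite_place h'
  obtain ⟨z0, hz0⟩ := Infinite.exists_notMem_finset (Divisor.pullback F' A).support
  have hz0' : Divisor.pullback F' A z0 = 0 := Finsupp.notMem_support_iff.1 hz0
  have hz1' : Divisor.pullback F' A (τ • z0) = 0 := by
    rw [hpb0, nd_restrict_smul τ hτF, ← hpb0]
    exact hz0'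
  set E : Divisor K F' := Finsupp.single (τ • z0) 1 - Finsupp.single z0 1 with hE
  have hEdeg : Divisor.degree E = 0 := by
    rw [hE, map_sub, Divisor.degree_single, Divisor.degree_single, h'.deg_eq_one, h'.deg_eq_one,
      sub_self]
  obtain ⟨W1, h0, hh0, hW1, hord⟩ := nd_exists_rep h' n
    (fun x => PicDiv.pic0_divisible h' n hn0 x) E hEdeg (Divisor.pullback F' A).support
  have hEpush : Divisor.pushforward F E = 0 := by
    rw [hE, map_sub, Divisor.pushforward_single, Divisor.pushforward_single,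
      nd_restrict_smul τ hτF, inertiaDeg_eq_one h h', inertiaDeg_eq_one h h', sub_self]
  have hDh0 : ∀ w : Place K F', (n • W1 - E) w = w.ord h0 := by
    intro w
    rw [hord, Finsupp.sub_apply, Finsupp.smul_apply, nsmul_eq_mul]
  have hEapp : ∀ w : Place K F', Divisor.pullback F' A w ≠ 0 → E w = 0 := by
    intro w hw
    have h1 : w ≠ τ • z0 := fun he => hw (he ▸ hz1')
    have h2 : w ≠ z0 := fun he => hw (he ▸ hz0')
    rw [hE, Finsupp.sub_apply, Finsupp.single_eq_of_ne h1, Finsupp.single_eq_of_ne h2, sub_zero]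
  have hW1app : ∀ w : Place K F', Divisor.pullback F' A w ≠ 0 → W1 w = 0 := fun w hw =>
    hW1 w (Finsupp.mem_support_iff.2 hw)
  -- the two data
  let y : TD K F n :=
    { D := Divisor.pushforward F W1
      u := Algebra.norm F h0
      u_ne := Algebra.norm_ne_zero_iff.2 hh0
      ord_u := fun P => by
        rw [← FFN.normFormula h (fun w => inertiaDeg_eq_one h h' w) h0 hh0 (n • W1 - E) hDh0 P,
          map_sub, hEpush, sub_zero, map_nsmul, Finsupp.smul_apply, nsmul_eq_mul] }
  let a : TD K F n :=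
    { D := A
      u := u1 ^ (ℓ ^ r)
      u_ne := pow_ne_zero _ hu1
      ord_u := fun P => by
        rw [nd_ord_pow, hA, hn]
        push_cast
        ring }
  have hdisj : a.Disj y := by
    refine Finset.disjoint_left.2 fun P hPA hPy => ?_
    have hPA' : A P ≠ 0 := Finsupp.mem_support_iff.1 hPA
    have hPy' : Divisor.pushforward F W1 P ≠ 0 := Finsupp.mem_support_iff.1 hPy
    rw [Divisor.pushforward_apply] at hPy'
    obtain ⟨w, hw, hw0⟩ := Finset.exists_ne_zero_of_sum_ne_zero hPy'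
    have hwP : w.restrict F = P := by
      by_contra hne
      exact hw0 (if_neg hne)
    have h1 : Divisor.pullback F' A w ≠ 0 := fun h0 => hPA' (by rw [← hwP]; exact (hpb0 w).1 h0)
    exact (Finsupp.mem_support_iff.1 hw) (hW1app w h1)
  refine ⟨a, y, rfl, hdisj, ?_⟩
  -- units
  have hNZ1 : NZ v W1 := nz_iff.2 ⟨hv0, fun w hw => by
    have h1 : Divisor.pullback F' A w = 0 := by
      by_contra hne
      exact hw (hW1app w hne)
    rw [hordv, h1, mul_zero]⟩
  have hoz0 : z0.ord v = 0 := by rw [hordv, hz0', mul_zero]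
  have hoz1 : (τ • z0).ord v = 0 := by rw [hordv, hz1', mul_zero]
  have hh0A : ∀ w : Place K F', A (w.restrict F) ≠ 0 → w.ord h0 = 0 := by
    intro w hw
    have h1 : Divisor.pullback F' A w ≠ 0 := fun h0 => hw ((hpb0 w).1 h0)
    rw [hord, hW1app w h1, hEapp w h1, mul_zero, sub_zero]
  set X : K := evalD v W1 with hX
  have hX0 : X ≠ 0 := evalD_ne_zero h' hNZ1
  -- (1)
  have e1 : evalD a.u y.D = X ^ (ℓ * ℓ ^ r) := by
    change evalD (u1 ^ (ℓ ^ r)) (Divisor.pushforward F W1) = _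
    have h1 : algebraMap F F' (u1 ^ (ℓ ^ r)) = v ^ (ℓ * ℓ ^ r) := by
      rw [map_pow, ← hv, ← pow_mul]
    rw [← evalD_push h h' (by rw [h1]; exact hNZ1.pow _), h1, evalD_pow h' hNZ1]
  -- the value of `v` on `E`
  have e2 : evalD v E = ζ⁻¹ := by
    have h1 : τ (algebraMap K F' ζ⁻¹ * v) = v := by
      rw [map_mul, AlgEquiv.commutes, hτ, ← mul_assoc, ← map_mul, inv_mul_cancel₀ hζ0, map_one,
        one_mul]
    have hreg : Reg z0 v := reg_of_ord hoz0
    have h2 := nd_val_smul h' τ z0 ((reg_algebraMap z0 ζ⁻¹).mul hreg)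
    rw [h1, val_mul h' (reg_algebraMap z0 ζ⁻¹) hreg, val_algebraMap h'] at h2
    rw [hE, evalD_sub h' (NZ.single hv0 hoz1 1) (NZ.single hv0 hoz0 1), evalD_single, evalD_single,
      zpow_one, zpow_one, h2, mul_div_assoc, div_self (val_ne_zero_of_ord h' hoz0 hv0), mul_one]
  -- (2)
  have e3 : evalD y.u a.D ^ (ℓ ^ i) = X ^ n * ζ := by
    change evalD (Algebra.norm F h0) A ^ (ℓ ^ i) = _
    rw [evalD_norm h h' hh0 hh0A, ← evalD_nsmul]
    have hr := recip h' hh0 hv0 (n • W1 - E) ((ℓ ^ i) • Divisor.pullback F' A) hDh0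
      (fun w => by rw [hordv, Finsupp.smul_apply, nsmul_eq_mul])
      (fun w => by
        by_cases hw : Divisor.pullback F' A w = 0
        · right
          rw [hordv, hw, mul_zero]
        · left
          exact hh0A w fun h0 => hw ((hpb0 w).2 h0))
    rw [hr, evalD_sub h' (hNZ1.nsmul n)
      ((NZ.single hv0 hoz1 1).sub (NZ.single hv0 hoz0 1)), evalD_nsmul, e2, div_inv_eq_mul]
  intro hwp
  have h1 : (wp a y) ^ (ℓ ^ i) = ζ⁻¹ := by
    rw [wp, div_pow, e1, e3, ← pow_mul]
    have h2 : ℓ * ℓ ^ r * ℓ ^ i = n := by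
      rw [hn]
      ring
    rw [h2, div_mul_eq_div_div, div_self (pow_ne_zero _ hX0), one_div]
  rw [hwp, one_pow] at h1
  exact hζ1 (by rw [← inv_inv ζ, ← h1, inv_one])

end Fermat.Agent.S19
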