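import Fermat.Agent.S19.Defs

/-!
# S19, layer ND, key `S19/ND-KUM` : the Kummer cover `F' = F(u^(1/ℓ))` as an abstract package

`u : F` is not an `ℓ`-th power (`ℓ` prime).  `F' := AdjoinRoot (X ^ ℓ - C u)`
(irreducible: `X_pow_sub_C_irreducible_of_prime`; `Fact (Irreducible _)` gives the `Field` instance),
`Algebra F F'`, `Algebra K F' := ((algebraMap F F').comp (algebraMap K F)).toAlgebra`, `IsScalarTower.of_algebraMap_eq fun _ => rfl`,
`Module.Finite F F'` (`(AdjoinRoot.powerBasis _).finite` / `Monic.finite_adjoinRoot`),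
`IsFF K F'` : `IsFF.of_finiteAlong h (IsScalarTower.toAlgHom K F F') _` (S37/FFBasic; unfold `FiniteAlong`, `algebraAlong`), or directly as in its proof.
`v := AdjoinRoot.root _`, `v ^ ℓ = u` (`AdjoinRoot.eval₂_root` / `AdjoinRoot.aeval_eq`, `AdjoinRoot.mk_self`).
`ζ : K` a primitive `ℓ`-th root of one (`IsAlgClosed.exists_pow_nat_eq`-style: `HasEnoughRootsOfUnity`, or
`(IsCyclotomicExtension ...)`, or: `Polynomial.cyclotomic ℓ K` has a root, `Polynomial.isRoot_cyclotomic_iff`, `NeZero (ℓ : K)` from `CharZero`).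
`τ : F' ≃ₐ[F] F'` with `τ v = ζ v`:  `AdjoinRoot.liftAlgHom`/`AdjoinRoot.liftHom _ (ζ v) _` is an `F`-algebra endomorphism of a finite field extension,
hence bijective (`AlgHom.bijective` / `AlgEquiv.ofBijective`); or Mathlib's `autAdjoinRootXPowSubC`.  `τK := τ.restrictScalars K`.
-/

set_option autoImplicit false
set_option linter.style.haveILetI false

noncomputable section

namespace Fermat.Agent.S19

open AlgebraicCurve Fermat.Agent.S37 Fermat.Agent.S27 Polynomial IntermediateField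

universe uK uF

variable {K : Type uK} {F : Type uF} [Field K] [Field F] [Algebra K F] [IsAlgClosed K] [CharZero K]

/-- a finite extension of a function field is a function field -/
theorem kum_isFF_of_finite {F' : Type*} [Field F'] [Algebra K F'] [Algebra F F'] [IsScalarTower K F F']
    [Module.Finite F F'] (h : IsFF K F) : IsFF K F' := by
  refine h.of_finiteAlong (IsScalarTower.toAlgHom K F F') ?_
  have he : algebraAlong (IsScalarTower.toAlgHom K F F') = (inferInstance : Algebra F F') :=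
    Algebra.algebra_ext _ _ fun _ => rfl
  unfold FiniteAlong
  rw [he]
  infer_instance

/-- a nontrivial `ℓ`-th root of one -/
theorem kum_exists_zeta (ℓ : ℕ) (hℓ : ℓ.Prime) : ∃ ζ : K, ζ ^ ℓ = 1 ∧ ζ ≠ 1 ∧ ζ ≠ 0 := by
  haveI : NeZero (ℓ : K) := ⟨by exact_mod_cast hℓ.ne_zero⟩
  obtain ⟨ζ, hζ⟩ := IsAlgClosed.exists_root (cyclotomic ℓ K)
    (by rw [degree_cyclotomic]; exact_mod_cast (Nat.totient_pos.2 hℓ.pos).ne')
  have hp : IsPrimitiveRoot ζ ℓ := (isRoot_cyclotomic_iff).1 hζ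
  exact ⟨ζ, hp.pow_eq_one, hp.ne_one hℓ.one_lt, hp.ne_zero hℓ.ne_zero⟩

/-- [key S19/ND-KUM] -/
theorem exists_kummer (h : IsFF K F) (ℓ : ℕ) (hℓ : ℓ.Prime) (u : F) (hu : ∀ t : F, t ^ ℓ ≠ u) :
    ∃ (F' : Type uF) (_ : Field F') (_ : Algebra K F') (_ : Algebra F F')
      (_ : IsScalarTower K F F') (_ : Module.Finite F F'), IsFF K F' ∧
      ∃ (v : F') (τ : F' ≃ₐ[K] F') (ζ : K), v ^ ℓ = algebraMap F F' u ∧
        τ v = algebraMap K F' ζ * v ∧ ζ ≠ 1 ∧ ζ ≠ 0 ∧
        ∀ f : F, τ (algebraMap F F' f) = algebraMap F F' f := by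
  have hirr : Irreducible (X ^ ℓ - C u : F[X]) := X_pow_sub_C_irreducible_of_prime hℓ hu
  haveI : Fact (Irreducible (X ^ ℓ - C u : F[X])) := ⟨hirr⟩
  have hmon : (X ^ ℓ - C u : F[X]).Monic := monic_X_pow_sub_C u hℓ.ne_zero
  haveI : Module.Finite F (AdjoinRoot (X ^ ℓ - C u : F[X])) := hmon.finite_adjoinRoot
  obtain ⟨ζ, hζ, hζ1, hζ0⟩ := kum_exists_zeta (K := K) ℓ hℓ
  have hroot : (AdjoinRoot.root (X ^ ℓ - C u : F[X])) ^ ℓ =
      algebraMap F (AdjoinRoot (X ^ ℓ - C u : F[X])) u := by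
    have h1 := AdjoinRoot.eval₂_root (X ^ ℓ - C u : F[X])
    rw [eval₂_sub, eval₂_pow, eval₂_X, eval₂_C, sub_eq_zero] at h1
    exact h1
  let φ : AdjoinRoot (X ^ ℓ - C u : F[X]) →ₐ[F] AdjoinRoot (X ^ ℓ - C u : F[X]) :=
    AdjoinRoot.liftAlgHom (X ^ ℓ - C u : F[X]) (Algebra.ofId F _)
      (algebraMap K (AdjoinRoot (X ^ ℓ - C u : F[X])) ζ * AdjoinRoot.root _) (by
        rw [eval₂_sub, eval₂_pow, eval₂_X, eval₂_C, mul_pow, ← map_pow, hζ, map_one, one_mul, hroot]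
        exact sub_self _)
  have hφ : φ (AdjoinRoot.root _) =
      algebraMap K (AdjoinRoot (X ^ ℓ - C u : F[X])) ζ * AdjoinRoot.root _ :=
    AdjoinRoot.liftAlgHom_root _ _ _ _
  let τ : AdjoinRoot (X ^ ℓ - C u : F[X]) ≃ₐ[F] AdjoinRoot (X ^ ℓ - C u : F[X]) :=
    AlgEquiv.ofBijective φ (Algebra.IsAlgebraic.algHom_bijective φ)
  exact ⟨AdjoinRoot (X ^ ℓ - C u : F[X]), inferInstance, inferInstance, inferInstance, inferInstance,
    inferInstance, kum_isFF_of_finite h, AdjoinRoot.root _, τ.restrictScalars K, ζ, hroot, hφ, hζ1,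
    hζ0, fun f => τ.commutes f⟩

end Fermat.Agent.S19
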