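import Fermat.Agent.S19.ND.Core
import Fermat.Agent.S19.ND.Kummer

/-!
# S19, layer ND : nondegeneracy of the Weil characters
Owner: helper15 (`S19/ND-owner`).  Blueprint: briefing `S19-BLUEPRINT-ND`, simplified (board, helper15, [S19/ND]):
`j = i + 1` minimal with `ℓ^j x = 0`, `(A, u1)` an `ℓ^j`-datum of `x`; `u1` is not an `ℓ`-th power; Kummer cover
(`ND/Kummer.lean`), computation on the cover (`ND/Core.lean`).
-/

set_option autoImplicit false

noncomputable section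

namespace Fermat.Agent.S19

open AlgebraicCurve Fermat.Agent.S37 Fermat.Agent.S27

variable {K F : Type*} [Field K] [Field F] [Algebra K F] [IsAlgClosed K] [CharZero K]

theorem exists_chi_ne_one (h : IsFF K F) (ℓ : ℕ) [Fact ℓ.Prime] (k : ℕ) (x : Pic0 K F)
    (hx : (ℓ ^ k) • x = 0) (hx0 : x ≠ 0) : ∃ y : TD K F (ℓ ^ k), chi y x ≠ 1 := by
  classical
  have hℓ : ℓ.Prime := Fact.out
  have hex : ∃ j, (ℓ ^ j) • x = 0 := ⟨k, hx⟩
  have hj : (ℓ ^ Nat.find hex) • x = 0 := Nat.find_spec hex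
  have hjk : Nat.find hex ≤ k := Nat.find_min' hex hx
  have hmin : ∀ m, m < Nat.find hex → (ℓ ^ m) • x ≠ 0 := fun m hm => Nat.find_min hex hm
  generalize Nat.find hex = j at hj hjk hmin
  rcases j with _ | i
  · rw [pow_zero, one_smul] at hj
    exact absurd hj hx0
  obtain ⟨r, rfl⟩ := Nat.exists_eq_add_of_le hjk
  obtain ⟨a1, ha1, -⟩ := exists_TD h (pow_pos hℓ.pos (i + 1)) x hj ∅
  have hnp : ∀ t : F, t ^ ℓ ≠ a1.u := by
    intro t ht
    have ht0 : t ≠ 0 := by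
      rintro rfl
      rw [zero_pow hℓ.ne_zero] at ht
      exact a1.u_ne ht.symm
    refine hmin i (Nat.lt_succ_self i) ?_
    rw [← ha1]
    refine nd_nsmul_cls_eq_zero ht0 fun P => ?_
    have h1 : (ℓ : ℤ) * P.ord t = P.ord a1.u := by rw [← ht, nd_ord_pow]
    rw [a1.ord_u] at h1
    have hℓ' : (ℓ : ℤ) ≠ 0 := by exact_mod_cast hℓ.ne_zero
    apply mul_left_cancel₀ hℓ'
    rw [h1]
    push_cast
    ring
  obtain ⟨F', _, _, _, _, _, h', v, τ, ζ, hv, hτ, hζ1, hζ0, hτF⟩ := exists_kummer h ℓ hℓ a1.u hnp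
  obtain ⟨a, y, haD, hd, hwp⟩ := nd_core h h' ℓ i r hℓ.pos a1.D a1.u a1.u_ne a1.ord_u v τ ζ hv hτ
    hζ1 hζ0 hτF
  refine ⟨y, ?_⟩
  have hcl : a.cl = x := by rw [← ha1, TD.cl, TD.cl, haD]
  rw [← hcl, chi_eq h (pow_pos hℓ.pos _) y a hd]
  exact hwp

end Fermat.Agent.S19
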